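/-
S30 (Program A+), leaf (R2b) COMPAT of lead note 17 (helper92).

The Kummer relation `Rel` of the AJ core (`Fermat.Agent.S42.H96`) is compatible with the change
of modulus `p * m → m`: if `ψ : Γ₀(N) → ℤ` and `x` are in relation at modulus `p * m`, then `ψ`
and `p • x` are in relation at modulus `m` (same polynomial `C`, divisor `p • D`, root `G ^ p`).
-/
import Mathlib
import Fermat.Agent.S42.H96.R1

set_option autoImplicit false

open UpperHalfPlane CongruenceSubgroup ModularCurve ModularCurve.Period AlgebraicCurve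
open Fermat.Agent.S24 Fermat.Agent.S42.H96
open scoped MatrixGroups Manifold

noncomputable section

namespace Fermat.Agent.S30.H92

/-- `ζ_n ^ (a mod n) = e^{2πi a/n}` for an integer `a`. -/
theorem zetaP_pow_val_intCast (n : ℕ) (hn : n ≠ 0) (a : ℤ) :
    zetaP n ^ ((a : ZMod n).val) = Complex.exp (2 * Real.pi * Complex.I * a / n) := by
  have : NeZero n := ⟨hn⟩
  have hn' : (n : ℂ) ≠ 0 := by exact_mod_cast hn
  rw [zetaP, ← Complex.exp_nat_mul, Complex.exp_eq_exp_iff_exists_int]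
  have hval : ((a : ZMod n).val : ℤ) = a % n := ZMod.val_intCast a
  refine ⟨-(a / n), ?_⟩
  have h1 : a = a % n + n * (a / n) := (Int.emod_add_mul_ediv a n).symm
  have h2 : (a : ℂ) = (((a : ZMod n).val : ℤ) : ℂ) + n * ((a / n : ℤ) : ℂ) := by
    rw [hval]
    exact_mod_cast h1
  rw [h2]
  push_cast
  field_simp
  ring

/-- The character of the reduction of an integral homomorphism. -/
theorem chiOf_redHom (N n : ℕ) (hn : n ≠ 0) (ψ : Additive (Gamma0 N) →+ ℤ) (γ : Gamma0 N) :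
    chiOf n (redHom N n ψ) γ =
      Complex.exp (2 * Real.pi * Complex.I * (ψ (Additive.ofMul γ) : ℤ) / n) := by
  unfold chiOf
  rw [redHom_apply]
  exact zetaP_pow_val_intCast n hn _

/-- `(ζ_{pm} ^ ψ) ^ p = ζ_m ^ ψ`. -/
theorem chiOf_redHom_pow (N p m : ℕ) (hp : p ≠ 0) (hm : m ≠ 0) (ψ : Additive (Gamma0 N) →+ ℤ)
    (γ : Gamma0 N) :
    chiOf (p * m) (redHom N (p * m) ψ) γ ^ p = chiOf m (redHom N m ψ) γ := by
  have hp' : (p : ℂ) ≠ 0 := by exact_mod_cast hp
  have hm' : (m : ℂ) ≠ 0 := by exact_mod_cast hm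
  rw [chiOf_redHom N (p * m) (Nat.mul_ne_zero hp hm), chiOf_redHom N m hm, ← Complex.exp_nat_mul]
  congr 1
  push_cast
  field_simp

/-- **(R2b) COMPAT.**  Change of modulus in the Kummer relation. -/
theorem rel_compat (N p m : ℕ) (hp : p ≠ 0) (hm : m ≠ 0) (ψ : Additive (Gamma0 N) →+ ℤ)
    (x : JZero N) (h : Rel N (p * m) (redHom N (p * m) ψ) x) :
    Rel N m (redHom N m ψ) (p • x) := by
  obtain ⟨C, D, hC, hD, rfl, G, hG, hGp, hGc⟩ := h
  refine ⟨C, p • D, hC, fun v => ?_, rfl, fun τ => G τ ^ p, hG.pow p, fun τ => ?_, fun γ τ => ?_⟩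
  · rw [hD v, AddSubgroup.coe_nsmul, Finsupp.smul_apply, nsmul_eq_mul]
    push_cast
    ring
  · rw [← pow_mul, hGp τ]
  · show G ((γ : SL(2, ℤ)) • τ) ^ p = chiOf m (redHom N m ψ) γ * G τ ^ p
    rw [hGc γ τ, mul_pow, chiOf_redHom_pow N p m hp hm]

end Fermat.Agent.S30.H92
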