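/-
S30 (Program A+), leaf (R2a), part 1 (helper92): CONVERSE of (ORD) at the cusps.

Let `G` be a holomorphic `p`-th root of `Θ(C)` with character `ζ_p ^ ψ`.  If `p ∣ v.ord (evF N C)`
at every place `v` of `F = ℚ̄(j_d)`, then `ψ` kills the parabolic elements of `Γ₀(N)`
(trace² = 4: the Prelude's `IsParabolicHom`).

Proof.  For a coset `x` of cusp width `k`, `F = G ∘ g_x⁻¹` satisfies `F (τ + k) = ζ^a F τ`; the
twisted function `F · e^{-2πi a τ/(p k)}` is `k`-periodic and its `p`-th power has order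
`≡ -a mod p` in the local parameter, so `p ∣ a` by the landed `dvd_of_periodic_root`.
-/
import Mathlib
import Fermat.Agent.S42.H96.Skeleton
import Fermat.Agent.S29.H5.OrdM
import Fermat.Agent.S24.PlaceOf
import Fermat.Agent.S21.H48.Parabolic

set_option autoImplicit false

open UpperHalfPlane CongruenceSubgroup ModularCurve ModularCurve.Period AlgebraicCurve
open Filter Topology
open Fermat.Agent.S24 Fermat.Agent.S42.H96
open scoped MatrixGroups Manifold Real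

noncomputable section

namespace Fermat.Agent.S30.H92

/-- `ζ_p` is a primitive `p`-th root of unity. -/
theorem isPrimitiveRoot_zetaP (p : ℕ) (hp : p ≠ 0) : IsPrimitiveRoot (zetaP p) p :=
  Complex.isPrimitiveRoot_exp p hp

/-- `ζ_p ^ ψ(γ) = 1` iff `ψ(γ) = 0`. -/
theorem chiOf_eq_one_iff {N p : ℕ} (hp : p ≠ 0) (ψ : Additive (Gamma0 N) →+ ZMod p)
    (γ : Gamma0 N) : chiOf p ψ γ = 1 ↔ ψ (Additive.ofMul γ) = 0 := by
  have : NeZero p := ⟨hp⟩
  unfold chiOf
  rw [(isPrimitiveRoot_zetaP p hp).pow_eq_one_iff_dvd]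
  constructor
  · intro h
    have h1 := Nat.eq_zero_of_dvd_of_lt h (ZMod.val_lt _)
    exact (ZMod.val_eq_zero _).mp h1
  · intro h
    rw [h, ZMod.val_zero]
    exact dvd_zero p

/-- `ζ_p ^ a` as an exponential. -/
theorem zetaP_pow_eq_exp (p a : ℕ) :
    zetaP p ^ a = Complex.exp (2 * π * Complex.I * a / p) := by
  rw [zetaP, ← Complex.exp_nat_mul]
  congr 1
  ring

/-- **Converse (ORD) at a cusp, core form**: the generator of the stabiliser of the cusp of the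
coset `x` is killed by `ψ`. -/
theorem psi_conj_T_minimalPeriod (N p : ℕ) [NeZero N] (hp : 0 < p)
    (ψ : Additive (Gamma0 N) →+ ZMod p) (C : MvPolynomial (N.divisors) Kbar)
    (hC : evF N C ≠ 0) (G : ℍ → ℂ) (hG : MDiff G) (hpow : ∀ τ, G τ ^ p = Theta N C τ)
    (hchar : HasChar N p ψ G)
    (hdvd : ∀ v : Place Kbar (FF N), (p : ℤ) ∣ v.ord (evF N C)) (x : XX N)
    (hmem : (Quotient.out x : SL(2, ℤ))⁻¹ * ModularGroup.T ^
      (Function.minimalPeriod (MulAction.toPerm ModularGroup.T : Equiv.Perm (XX N)) x) *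
        Quotient.out x ∈ Gamma0 N) :
    ψ (Additive.ofMul (⟨_, hmem⟩ : Gamma0 N)) = 0 := by
  classical
  have hpne : NeZero p := ⟨hp.ne'⟩
  let _ : Fintype (XX N) := Fintype.ofFinite _
  obtain ⟨L, hρ, hφ⟩ := exists_localData_inf N
  have hR := Fermat.Agent.S29.H5.frac_range N
  obtain ⟨v, hv, hx⟩ := L.exists_place_rel x
  have he := L.ord_π_eq_minimalPeriod hR v hv hx
  rw [hρ] at he
  set k : ℕ := Function.minimalPeriod (MulAction.toPerm ModularGroup.T : Equiv.Perm (XX N)) x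
    with hk
  have hk0 : 0 < k := by
    have : (0 : ℤ) < (k : ℤ) := by rw [← he]; exact hv
    exact_mod_cast this
  -- the value of `L.s`
  have hLs : (L.s : ℤ) = N := by
    have h1 := L.order_π x
    have h2 : L.φ x (jgen N) = coeffMap iota (qExpand Kbar N (jqModC Kbar)) := by
      have h3 : L.φ x (jgen N) = L.φ x (evF N (MvPolynomial.X (oneDiv N))) :=
        congrArg (L.φ x) (evF_X_one N).symm
      rw [h3, hφ, PhiInf_X_one]
    rw [map_inv₀, lorder_inv, h2, order_coeffMap, order_qExpand, H59inf.order_jqModC_Kbar] at h1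
    rw [← h1]
    ring
  -- the translate of `G`
  set g : SL(2, ℤ) := Quotient.out x with hg
  set F : ℍ → ℂ := fun τ => G (g⁻¹ • τ) with hF
  have hFc : Continuous F := (H92.mdiff_comp_smul g⁻¹ hG).continuous
  have htr : ∀ τ, transl N x C τ = F τ ^ p := by
    intro τ
    show Theta N C (g⁻¹ • τ) = G (g⁻¹ • τ) ^ p
    rw [hpow]
  set γk : Gamma0 N := ⟨g⁻¹ * ModularGroup.T ^ k * g, hmem⟩ with hγk
  set a : ℕ := (ψ (Additive.ofMul γk)).val with ha
  have halt : a < p := ZMod.val_lt _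
  -- semi-periodicity
  have hper : ∀ τ : ℍ, F ((k : ℝ) +ᵥ τ) = chiOf p ψ γk * F τ := by
    intro τ
    have h1 : ((k : ℝ) +ᵥ τ : ℍ) = ModularGroup.T ^ k • τ := by
      have h2 := UpperHalfPlane.modular_T_zpow_smul τ (k : ℤ)
      rw [zpow_natCast] at h2
      rw [h2]
      push_cast
      rfl
    have h3 := hchar γk (g⁻¹ • τ)
    show G (g⁻¹ • ((k : ℝ) +ᵥ τ)) = chiOf p ψ γk * G (g⁻¹ • τ)
    rw [h1, ← h3]
    congr 1
    show g⁻¹ • ModularGroup.T ^ k • τ = (g⁻¹ * ModularGroup.T ^ k * g) • g⁻¹ • τ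
    rw [mul_smul, mul_smul, smul_inv_smul]
  -- the expansion at infinity
  have hexp : HasExp atImInfty (qN N) (transl N x C) (L.φ x (evF N C)) := by
    rw [hφ]
    exact hasExp_PhiInf N x C
  have hΛ0 : L.φ x (evF N C) ≠ 0 := L.φ_ne_zero x hC
  have hc : (L.φ x (evF N C)).leadingCoeff ≠ 0 := HahnSeries.leadingCoeff_ne_zero.mpr hΛ0
  have hlim := H62.hasExp_tendsto_div_zpow_order (tendsto_qN N) hexp
  set n : ℤ := (L.φ x (evF N C)).order with hn
  -- the relation between the orders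
  have hrel := hx (evF N C)
  rw [hLs, he, ← hn] at hrel
  -- `hrel : n * k = N * v.ord (evF N C)`
  -- the twisted function
  have hNk : NeZero (N * k) := ⟨Nat.mul_ne_zero (NeZero.ne N) hk0.ne'⟩
  set Ft : ℍ → ℂ := fun τ => F τ * Fermat.Agent.S29.H5.twist (N * k) p ((a : ℤ) * N) τ with hFt
  have hFtc : Continuous Ft := hFc.mul (Fermat.Agent.S29.H5.continuous_twist _ _ _)
  have hchi : chiOf p ψ γk * Complex.exp (-(2 * π * Complex.I * ((a : ℤ) : ℂ)) / p) = 1 := by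
    have h1 : chiOf p ψ γk = Complex.exp (2 * π * Complex.I * a / p) := zetaP_pow_eq_exp p a
    rw [h1, ← Complex.exp_add]
    have : 2 * (π : ℂ) * Complex.I * (a : ℂ) / p + -(2 * π * Complex.I * ((a : ℤ) : ℂ)) / p = 0 := by
      push_cast
      ring
    rw [this, Complex.exp_zero]
  have hFtper : ∀ τ : ℍ, Ft ((k : ℝ) +ᵥ τ) = Ft τ := by
    intro τ
    show F ((k : ℝ) +ᵥ τ) * Fermat.Agent.S29.H5.twist (N * k) p ((a : ℤ) * N) ((k : ℝ) +ᵥ τ)
      = F τ * Fermat.Agent.S29.H5.twist (N * k) p ((a : ℤ) * N) τ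
    rw [hper, Fermat.Agent.S29.H5.twist_vadd (N * k) p hp ((a : ℤ) * N) (a : ℤ) k
      (by push_cast; ring) τ]
    linear_combination (F τ * Fermat.Agent.S29.H5.twist (N * k) p ((a : ℤ) * N) τ) * hchi
  -- the limit
  have hq : ∀ τ : ℍ, qN N τ = qN (N * k) τ ^ k := by
    intro τ
    have hN : (N : ℂ) ≠ 0 := by exact_mod_cast NeZero.ne N
    have hk' : (k : ℂ) ≠ 0 := by exact_mod_cast hk0.ne'
    unfold qN Function.Periodic.qParam
    rw [← Complex.exp_nat_mul]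
    congr 1
    push_cast
    field_simp
  have hq0 : ∀ τ : ℍ, qN (N * k) τ ≠ 0 := fun τ => by
    unfold qN Function.Periodic.qParam
    exact Complex.exp_ne_zero _
  have hlim' : Tendsto (fun τ => Ft τ ^ p / qN (N * k) τ ^ (n * k - (a : ℤ) * N)) atImInfty
      (𝓝 (L.φ x (evF N C)).leadingCoeff) := by
    refine hlim.congr fun τ => ?_
    show transl N x C τ / qN N τ ^ n = Ft τ ^ p / qN (N * k) τ ^ (n * k - (a : ℤ) * N)
    rw [htr, hFt]
    simp only
    rw [mul_pow, Fermat.Agent.S29.H5.twist_pow (N * k) p hp ((a : ℤ) * N) τ, hq τ,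
      ← zpow_natCast (qN (N * k) τ) k, ← zpow_mul, zpow_sub₀ (hq0 τ)]
    have h1 : qN (N * k) τ ^ ((k : ℤ) * n) = qN (N * k) τ ^ (n * (k : ℤ)) := by
      rw [mul_comm (k : ℤ) n]
    rw [h1]
    have h2 : qN (N * k) τ ^ (n * (k : ℤ)) ≠ 0 := zpow_ne_zero _ (hq0 τ)
    have h3 : qN (N * k) τ ^ ((a : ℤ) * (N : ℤ)) ≠ 0 := zpow_ne_zero _ (hq0 τ)
    field_simp
  have hdiv := Fermat.Agent.S29.H5.dvd_of_periodic_root hp (N := N * k) (k := k) Ft hFtc hFtper
    (n * k - (a : ℤ) * N) (v.ord (evF N C) - a)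
    (by push_cast; linear_combination (k : ℤ) * hrel) _ hc hlim'
  -- conclude
  have hda : (p : ℤ) ∣ (a : ℤ) := by
    have h1 := dvd_sub (hdvd v) hdiv
    simpa using h1
  have ha0 : a = 0 := by
    have h1 : p ∣ a := by exact_mod_cast hda
    exact Nat.eq_zero_of_dvd_of_lt h1 halt
  exact (ZMod.val_eq_zero _).mp ha0

/-- `-1 ∈ Γ₀(N)`. -/
theorem neg_one_mem (N : ℕ) : (-1 : SL(2, ℤ)) ∈ Gamma0 N := by
  rw [Gamma0_mem]
  simp

/-- A `p`-th root of a nonzero `Θ(C)` does not vanish identically. -/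
theorem exists_ne_zero_of_root (N p : ℕ) [NeZero N] (hp : 0 < p)
    (C : MvPolynomial (N.divisors) Kbar) (hC : evF N C ≠ 0) (G : ℍ → ℂ)
    (hpow : ∀ τ, G τ ^ p = Theta N C τ) : ∃ τ, G τ ≠ 0 := by
  by_contra h
  push Not at h
  apply hC
  rw [← Theta_eq_zero_iff]
  funext τ
  rw [← hpow, h τ, zero_pow hp.ne']
  rfl

/-- A character value is trivial as soon as the function is invariant. -/
theorem psi_eq_zero_of_invariant (N p : ℕ) [NeZero N] (hp : 0 < p)
    (ψ : Additive (Gamma0 N) →+ ZMod p) (C : MvPolynomial (N.divisors) Kbar)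
    (hC : evF N C ≠ 0) (G : ℍ → ℂ) (hpow : ∀ τ, G τ ^ p = Theta N C τ)
    (hchar : HasChar N p ψ G) (γ : Gamma0 N) (hinv : ∀ τ : ℍ, (γ : SL(2, ℤ)) • τ = τ) :
    ψ (Additive.ofMul γ) = 0 := by
  obtain ⟨τ, hτ⟩ := exists_ne_zero_of_root N p hp C hC G hpow
  have h1 := hchar γ τ
  rw [hinv τ] at h1
  have h2 : chiOf p ψ γ = 1 := by
    have h3 : (chiOf p ψ γ - 1) * G τ = 0 := by linear_combination -h1
    rcases mul_eq_zero.mp h3 with h4 | h4
    · exact sub_eq_zero.mp h4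
    · exact absurd h4 hτ
  exact (chiOf_eq_one_iff hp.ne' ψ γ).mp h2

/-- `ψ (-1) = 0`. -/
theorem psi_neg_one (N p : ℕ) [NeZero N] (hp : 0 < p)
    (ψ : Additive (Gamma0 N) →+ ZMod p) (C : MvPolynomial (N.divisors) Kbar)
    (hC : evF N C ≠ 0) (G : ℍ → ℂ) (hpow : ∀ τ, G τ ^ p = Theta N C τ)
    (hchar : HasChar N p ψ G) :
    ψ (Additive.ofMul (⟨-1, neg_one_mem N⟩ : Gamma0 N)) = 0 := by
  refine psi_eq_zero_of_invariant N p hp ψ C hC G hpow hchar _ fun τ => ?_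
  show (-1 : SL(2, ℤ)) • τ = τ
  rw [ModularGroup.SL_neg_smul, one_smul]

/-- **Converse (ORD) at the cusps**: under the divisibility hypothesis, `ψ` kills every element
of `Γ₀(N)` with `trace² = 4`. -/
theorem psi_eq_zero_of_trace (N p : ℕ) [NeZero N] (hp : 0 < p)
    (ψ : Additive (Gamma0 N) →+ ZMod p) (C : MvPolynomial (N.divisors) Kbar)
    (hC : evF N C ≠ 0) (G : ℍ → ℂ) (hG : MDiff G) (hpow : ∀ τ, G τ ^ p = Theta N C τ)
    (hchar : HasChar N p ψ G)
    (hdvd : ∀ v : Place Kbar (FF N), (p : ℤ) ∣ v.ord (evF N C)) (γ : Gamma0 N)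
    (htr : ((γ : SL(2, ℤ)) : Matrix (Fin 2) (Fin 2) ℤ).trace ^ 2 = 4) :
    ψ (Additive.ofMul γ) = 0 := by
  obtain ⟨δ, m, hδ⟩ := Fermat.Agent.S21.H48.exists_conj_T_zpow (γ : SL(2, ℤ)) htr
  have hγ' : δ * ModularGroup.T ^ m * δ⁻¹ ∈ Gamma0 N := by
    rcases hδ with h | h
    · rw [← h]; exact γ.2
    · have h1 : δ * ModularGroup.T ^ m * δ⁻¹ = (-1 : SL(2, ℤ)) * γ := by
        rw [h]; simp
      rw [h1]
      exact (Gamma0 N).mul_mem (neg_one_mem N) γ.2
  suffices hsuff : ψ (Additive.ofMul (⟨_, hγ'⟩ : Gamma0 N)) = 0 by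
    rcases hδ with h | h
    · have h1 : γ = ⟨_, hγ'⟩ := Subtype.ext h
      rw [h1]; exact hsuff
    · have h1 : γ = (⟨-1, neg_one_mem N⟩ : Gamma0 N) * ⟨_, hγ'⟩ := by
        apply Subtype.ext
        show (γ : SL(2, ℤ)) = (-1 : SL(2, ℤ)) * (δ * ModularGroup.T ^ m * δ⁻¹)
        rw [h]; simp
      rw [h1, ofMul_mul, map_add, hsuff, psi_neg_one N p hp ψ C hC G hpow hchar, add_zero]
  -- the coset of `δ⁻¹`
  set x : XX N := ((δ⁻¹ : SL(2, ℤ)) : XX N) with hx
  set k : ℕ := Function.minimalPeriod (MulAction.toPerm ModularGroup.T : Equiv.Perm (XX N)) x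
    with hk
  have hTm : (ModularGroup.T ^ m) • x = x := by
    show (((ModularGroup.T ^ m * δ⁻¹ : SL(2, ℤ))) : XX N) = ((δ⁻¹ : SL(2, ℤ)) : XX N)
    rw [eq_comm, QuotientGroup.eq]
    have h1 : (δ⁻¹)⁻¹ * (ModularGroup.T ^ m * δ⁻¹) = δ * ModularGroup.T ^ m * δ⁻¹ := by group
    rw [h1]; exact hγ'
  have hiter : ∀ n : ℕ, (⇑(MulAction.toPerm ModularGroup.T : Equiv.Perm (XX N)))^[n] x
      = ModularGroup.T ^ n • x := by
    intro n
    have h1 : (⇑(MulAction.toPerm ModularGroup.T : Equiv.Perm (XX N))) =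
        fun y : XX N => ModularGroup.T • y := rfl
    rw [h1, smul_iterate]
  -- `k ∣ m`
  have hkm : (k : ℤ) ∣ m := by
    rw [Int.natCast_dvd]
    apply Function.IsPeriodicPt.minimalPeriod_dvd
    show (⇑(MulAction.toPerm ModularGroup.T : Equiv.Perm (XX N)))^[m.natAbs] x = x
    rw [hiter]
    rcases Int.natAbs_eq m with h | h
    · have h1 : ModularGroup.T ^ m.natAbs = ModularGroup.T ^ m := by
        conv_rhs => rw [h]
        rw [zpow_natCast]
      rw [h1]; exact hTm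
    · have h1 : ModularGroup.T ^ m.natAbs = (ModularGroup.T ^ m)⁻¹ := by
        conv_rhs => rw [h]
        rw [zpow_neg, inv_inv, zpow_natCast]
      rw [h1, inv_smul_eq_iff]; exact hTm.symm
  obtain ⟨j, hj⟩ := hkm
  have hfix : ModularGroup.T ^ k • x = x := by
    rw [← hiter]
    exact Function.isPeriodicPt_minimalPeriod _ _
  have hmem := Fermat.Agent.S29.H5.conj_mem_of_smul_eq N (ModularGroup.T ^ k) x hfix
  have hcore := psi_conj_T_minimalPeriod N p hp ψ C hC G hG hpow hchar hdvd x hmem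
  set g : SL(2, ℤ) := Quotient.out x with hg
  have hgx : ((g : SL(2, ℤ)) : XX N) = ((δ⁻¹ : SL(2, ℤ)) : XX N) := QuotientGroup.out_eq' x
  have hh : δ * g ∈ Gamma0 N := by
    have h1 := QuotientGroup.eq.mp hgx.symm
    simpa using h1
  have hrel : (⟨_, hγ'⟩ : Gamma0 N) =
      ⟨δ * g, hh⟩ * (⟨_, hmem⟩ : Gamma0 N) ^ j * (⟨δ * g, hh⟩ : Gamma0 N)⁻¹ := by
    apply Subtype.ext
    show δ * ModularGroup.T ^ m * δ⁻¹ =
      δ * g * (g⁻¹ * ModularGroup.T ^ k * g) ^ j * (δ * g)⁻¹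
    have hc : (g⁻¹ * ModularGroup.T ^ k * g) ^ j = g⁻¹ * (ModularGroup.T ^ k) ^ j * g := by
      have h1 := conj_zpow (a := g⁻¹) (b := ModularGroup.T ^ k) (i := j)
      rw [inv_inv] at h1
      exact h1
    rw [hc, hj, zpow_mul, zpow_natCast]
    group
  rw [hrel, ofMul_mul, ofMul_mul, map_add, map_add, ofMul_zpow, map_zsmul, hcore, smul_zero,
    ofMul_inv, map_neg]
  abel

end Fermat.Agent.S30.H92
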