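/-
S30 (Program A+), leaf (R2a), auxiliary (helper92): elements of finite order of `SL(2, ℤ)`.
Mathlib only.

* `trace_of_isOfFinOrder`: an element of finite order other than `±1` has trace `0`, `1` or `-1`.
* `sq_eq_neg_one_of_trace`, `cube_eq_neg_one_of_trace`, `cube_eq_one_of_trace`.
* `exists_smul_eq_self`: an element with `trace² < 4` has a fixed point in the upper half plane.
* `denom_sq_sub`: at a fixed point, `μ = c τ₀ + d` satisfies `μ² - (trace) μ + 1 = 0`.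
* `exists_isPrimitiveRoot_denom`: for an element of finite order `≠ ±1` with fixed point `τ₀`,
  `(c τ₀ + d)²` is a primitive `s`-th root of unity, `s ∈ {2, 3}`, and `γ ^ s = ±1`.
-/
import Mathlib

set_option autoImplicit false

open UpperHalfPlane
open scoped MatrixGroups

noncomputable section

namespace Fermat.Agent.S30.H92

/-- Cayley–Hamilton in `SL(2, ℤ)`. -/
theorem coe_mul_self (A : SL(2, ℤ)) :
    (A : Matrix (Fin 2) (Fin 2) ℤ) * (A : Matrix (Fin 2) (Fin 2) ℤ) =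
      (A : Matrix (Fin 2) (Fin 2) ℤ).trace • (A : Matrix (Fin 2) (Fin 2) ℤ) - 1 := by
  have hdet := A.det_coe
  rw [Matrix.det_fin_two] at hdet
  ext i j
  fin_cases i <;> fin_cases j <;>
    simp [Matrix.mul_apply, Fin.sum_univ_two, Matrix.trace_fin_two, -zsmul_eq_mul] <;>
    first | ring1 | linear_combination -hdet

section Mat

variable {M : Matrix (Fin 2) (Fin 2) ℤ} {t : ℤ}

theorem pow_add_two (hM : M * M = t • M - 1) (k : ℕ) :
    M ^ (k + 2) = t • M ^ (k + 1) - M ^ k := by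
  rw [pow_succ, pow_succ, mul_assoc, hM, mul_sub, mul_one, mul_smul_comm, ← pow_succ]

theorem trace_pow_add_two (hM : M * M = t • M - 1) (k : ℕ) :
    (M ^ (k + 2)).trace = t * (M ^ (k + 1)).trace - (M ^ k).trace := by
  rw [pow_add_two hM, Matrix.trace_sub, Matrix.trace_smul, smul_eq_mul]

/-- For `|t| ≥ 3` the absolute values of the traces of the powers increase strictly. -/
theorem abs_trace_pow_lt (hM : M * M = t • M - 1) (hMt : M.trace = t) (ht : 3 ≤ |t|) (k : ℕ) :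
    |(M ^ k).trace| < |(M ^ (k + 1)).trace| := by
  induction k with
  | zero =>
    rw [pow_zero, zero_add, pow_one, hMt, Matrix.trace_one]
    simp only [Fintype.card_fin, Nat.cast_ofNat]
    have : |(2 : ℤ)| = 2 := abs_of_pos (by norm_num)
    rw [this]
    omega
  | succ k ih =>
    rw [trace_pow_add_two hM k]
    have h1 : |t * (M ^ (k + 1)).trace| - |(M ^ k).trace| ≤
        |t * (M ^ (k + 1)).trace - (M ^ k).trace| := abs_sub_abs_le_abs_sub _ _
    rw [abs_mul] at h1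
    have h2 : 0 ≤ |(M ^ (k + 1)).trace| := abs_nonneg _
    have h3 : 0 ≤ |(M ^ k).trace| := abs_nonneg _
    nlinarith

theorem two_lt_abs_trace_pow (hM : M * M = t • M - 1) (hMt : M.trace = t) (ht : 3 ≤ |t|)
    (k : ℕ) : 2 < |(M ^ (k + 1)).trace| := by
  induction k with
  | zero =>
    rw [zero_add, pow_one, hMt]
    omega
  | succ k ih => exact lt_trans ih (abs_trace_pow_lt hM hMt ht (k + 1))

/-- A matrix with `M² = 2M - 1` of finite order is the identity. -/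
theorem eq_one_of_pow_eq_one (hM : M * M = (2 : ℤ) • M - 1) {n : ℕ} (hn : n ≠ 0)
    (h : M ^ n = 1) : M = 1 := by
  have key : ∀ k : ℕ, M ^ k = 1 + (k : ℤ) • (M - 1) := by
    intro k
    induction k with
    | zero => simp
    | succ k ih =>
      rw [pow_succ, ih, add_mul, one_mul, smul_mul_assoc, sub_mul, one_mul, hM]
      push_cast
      module
  have h1 := key n
  rw [h] at h1
  have h2 : (n : ℤ) • (M - 1) = 0 := by
    have := h1
    exact (add_eq_left.mp this.symm)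
  have h3 : M - 1 = 0 := by
    ext i j
    have h4 := congrFun (congrFun h2 i) j
    simp only [Matrix.smul_apply, Matrix.zero_apply, smul_eq_mul] at h4
    have hn' : (n : ℤ) ≠ 0 := by exact_mod_cast hn
    rcases mul_eq_zero.mp h4 with h5 | h5
    · exact absurd h5 hn'
    · simpa using h5
  exact sub_eq_zero.mp h3

end Mat

/-- **Traces of elements of finite order.** -/
theorem trace_of_isOfFinOrder (A : SL(2, ℤ)) (hA : IsOfFinOrder A) (h1 : A ≠ 1) (h2 : A ≠ -1) :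
    (A : Matrix (Fin 2) (Fin 2) ℤ).trace = 0 ∨ (A : Matrix (Fin 2) (Fin 2) ℤ).trace = 1 ∨
      (A : Matrix (Fin 2) (Fin 2) ℤ).trace = -1 := by
  obtain ⟨n, hn, hAn⟩ := isOfFinOrder_iff_pow_eq_one.mp hA
  set M : Matrix (Fin 2) (Fin 2) ℤ := (A : Matrix (Fin 2) (Fin 2) ℤ) with hM
  set t : ℤ := M.trace with ht
  have hMM : M * M = t • M - 1 := coe_mul_self A
  have hMn : M ^ n = 1 := by
    have := congrArg (fun B : SL(2, ℤ) => (B : Matrix (Fin 2) (Fin 2) ℤ)) hAn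
    simpa using this
  by_cases h3 : 3 ≤ |t|
  · exfalso
    obtain ⟨k, rfl⟩ : ∃ k, n = k + 1 := Nat.exists_eq_succ_of_ne_zero hn.ne'
    have h4 := two_lt_abs_trace_pow hMM rfl h3 k
    rw [hMn, Matrix.trace_one] at h4
    simp at h4
  · have h4 : |t| ≤ 2 := by omega
    rw [abs_le] at h4
    have h5 : t = -2 ∨ t = -1 ∨ t = 0 ∨ t = 1 ∨ t = 2 := by omega
    rcases h5 with h5 | h5 | h5 | h5 | h5
    · -- `t = -2`: `-A = 1`
      exfalso
      apply h2
      have hM' : (-M) * (-M) = (2 : ℤ) • (-M) - 1 := by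
        rw [neg_mul_neg, hMM, h5]
        module
      have hMn' : (-M) ^ (2 * n) = 1 := by
        rw [pow_mul, neg_sq, ← pow_mul, mul_comm, pow_mul, hMn, one_pow]
      have h6 := eq_one_of_pow_eq_one hM' (by omega) hMn'
      apply Subtype.ext
      show M = (-1 : Matrix (Fin 2) (Fin 2) ℤ)
      rw [← h6, neg_neg]
    · exact Or.inr (Or.inr h5)
    · exact Or.inl h5
    · exact Or.inr (Or.inl h5)
    · exfalso
      apply h1
      have h6 := eq_one_of_pow_eq_one (by rw [hMM, h5]) hn.ne' hMn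
      exact Subtype.ext h6

/-- Trace `0`: `A² = -1`. -/
theorem sq_eq_neg_one_of_trace (A : SL(2, ℤ)) (h : (A : Matrix (Fin 2) (Fin 2) ℤ).trace = 0) :
    A ^ 2 = -1 := by
  apply Subtype.ext
  have h1 := coe_mul_self A
  rw [h, zero_smul, zero_sub] at h1
  show ((A ^ 2 : SL(2, ℤ)) : Matrix (Fin 2) (Fin 2) ℤ) = -1
  rw [Matrix.SpecialLinearGroup.coe_pow, pow_two, h1]

/-- Trace `1`: `A³ = -1`. -/
theorem cube_eq_neg_one_of_trace (A : SL(2, ℤ))
    (h : (A : Matrix (Fin 2) (Fin 2) ℤ).trace = 1) : A ^ 3 = -1 := by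
  apply Subtype.ext
  have h1 := coe_mul_self A
  rw [h, one_smul] at h1
  show ((A ^ 3 : SL(2, ℤ)) : Matrix (Fin 2) (Fin 2) ℤ) = -1
  rw [Matrix.SpecialLinearGroup.coe_pow, pow_succ, pow_two, h1, sub_mul, one_mul, h1]
  abel

/-- Trace `-1`: `A³ = 1`. -/
theorem cube_eq_one_of_trace (A : SL(2, ℤ))
    (h : (A : Matrix (Fin 2) (Fin 2) ℤ).trace = -1) : A ^ 3 = 1 := by
  apply Subtype.ext
  have h1 := coe_mul_self A
  rw [h, neg_one_smul] at h1
  show ((A ^ 3 : SL(2, ℤ)) : Matrix (Fin 2) (Fin 2) ℤ) = 1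
  rw [Matrix.SpecialLinearGroup.coe_pow, pow_succ, pow_two, h1, sub_mul, one_mul, neg_mul, h1]
  abel

/-- An element of `SL(2, ℤ)` with `trace² < 4` has a fixed point in the upper half plane. -/
theorem exists_smul_eq_self (A : SL(2, ℤ))
    (ht : (A : Matrix (Fin 2) (Fin 2) ℤ).trace ^ 2 < 4) : ∃ τ₀ : ℍ, A • τ₀ = τ₀ := by
  have hdet := A.det_coe
  rw [Matrix.det_fin_two] at hdet
  rw [Matrix.trace_fin_two] at ht
  have hc : A 1 0 ≠ 0 := by
    intro hc0
    rw [hc0, mul_zero, sub_zero] at hdet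
    rcases Int.eq_one_or_neg_one_of_mul_eq_one' hdet with ⟨h1, h2⟩ | ⟨h1, h2⟩ <;>
      rw [h1, h2] at ht <;> norm_num at ht
  have hcR : (A 1 0 : ℝ) ≠ 0 := by exact_mod_cast hc
  have hdetR : (A 0 0 : ℝ) * A 1 1 - A 0 1 * A 1 0 = 1 := by exact_mod_cast hdet
  set D : ℝ := 4 - ((A 0 0 : ℝ) + A 1 1) ^ 2 with hD
  have hD0 : 0 < D := by
    have h1 : (((A 0 0 + A 1 1) ^ 2 : ℤ) : ℝ) < 4 := by exact_mod_cast ht
    push_cast at h1
    rw [hD]
    linarith
  set y : ℝ := Real.sqrt D / (2 * |(A 1 0 : ℝ)|) with hy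
  have hy0 : 0 < y := div_pos (Real.sqrt_pos.mpr hD0) (by positivity)
  set x : ℝ := ((A 0 0 : ℝ) - A 1 1) / (2 * A 1 0) with hx
  have hx2 : 2 * (A 1 0 : ℝ) * x = A 0 0 - A 1 1 := by
    rw [hx]
    field_simp
  have hy2 : 4 * (A 1 0 : ℝ) ^ 2 * y ^ 2 = D := by
    rw [hy, div_pow, mul_pow, sq_abs, Real.sq_sqrt hD0.le]
    field_simp
    norm_num
  refine ⟨⟨⟨x, y⟩, hy0⟩, ?_⟩
  apply UpperHalfPlane.ext
  rw [UpperHalfPlane.coe_specialLinearGroup_apply]
  simp only [eq_intCast, Complex.ofReal_intCast]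
  have hden : ((A 1 0 : ℤ) : ℂ) * ((⟨⟨x, y⟩, hy0⟩ : ℍ) : ℂ) + ((A 1 1 : ℤ) : ℂ) ≠ 0 := by
    have h := UpperHalfPlane.denom_ne_zero (A : GL (Fin 2) ℝ) (⟨⟨x, y⟩, hy0⟩ : ℍ)
    rw [ModularGroup.denom_apply] at h
    exact h
  rw [div_eq_iff hden]
  have key : 4 * (A 1 0 : ℝ) * ((A 1 0 : ℝ) * x ^ 2 + A 1 1 * x - A 1 0 * y ^ 2 - A 0 0 * x
      - A 0 1) = 0 := by
    have h1 : 4 * (A 1 0 : ℝ) * ((A 1 0 : ℝ) * x ^ 2 + A 1 1 * x - A 1 0 * y ^ 2 - A 0 0 * x
        - A 0 1) = (2 * (A 1 0 : ℝ) * x) ^ 2 + 2 * ((A 1 1 : ℝ) - A 0 0) * (2 * (A 1 0 : ℝ) * x)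
          - 4 * (A 1 0 : ℝ) ^ 2 * y ^ 2 - 4 * A 0 1 * A 1 0 := by ring
    rw [h1, hx2, hy2, hD]
    linear_combination 4 * hdetR
  have key' : (A 1 0 : ℝ) * x ^ 2 + A 1 1 * x - A 1 0 * y ^ 2 - A 0 0 * x - A 0 1 = 0 := by
    rcases mul_eq_zero.mp key with h | h
    · exfalso
      have : (4 : ℝ) * (A 1 0 : ℝ) ≠ 0 := mul_ne_zero (by norm_num) hcR
      exact this h
    · exact h
  apply Complex.ext
  · simp
    linear_combination -key'
  · simp
    linear_combination -y * hx2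

/-- At a fixed point `τ₀` of `A`, the number `μ = c τ₀ + d` is an eigenvalue of `A`. -/
theorem denom_sq_sub (A : SL(2, ℤ)) (τ₀ : ℍ) (h : A • τ₀ = τ₀) :
    denom (A : GL (Fin 2) ℝ) τ₀ ^ 2
      - ((A : Matrix (Fin 2) (Fin 2) ℤ).trace : ℂ) * denom (A : GL (Fin 2) ℝ) τ₀ + 1 = 0 := by
  have hdet := A.det_coe
  rw [Matrix.det_fin_two] at hdet
  have hdetC : ((A 0 0 : ℤ) : ℂ) * (A 1 1 : ℤ) - (A 0 1 : ℤ) * (A 1 0 : ℤ) = 1 := by
    exact_mod_cast hdet
  have hden : ((A 1 0 : ℤ) : ℂ) * (τ₀ : ℂ) + ((A 1 1 : ℤ) : ℂ) ≠ 0 := by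
    have h' := UpperHalfPlane.denom_ne_zero (A : GL (Fin 2) ℝ) τ₀
    rw [ModularGroup.denom_apply] at h'
    exact h'
  have h1 : ((A • τ₀ : ℍ) : ℂ) = (τ₀ : ℂ) := by rw [h]
  rw [UpperHalfPlane.coe_specialLinearGroup_apply] at h1
  simp only [eq_intCast, Complex.ofReal_intCast] at h1
  rw [div_eq_iff hden] at h1
  rw [ModularGroup.denom_apply, Matrix.trace_fin_two]
  push_cast
  linear_combination (-((A 1 0 : ℤ) : ℂ)) * h1 - hdetC

/-- Roots of `X² + 1`, `X² - X + 1`, `X² + X + 1`: their squares are primitive roots of unity. -/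
theorem isPrimitiveRoot_sq_of_trace_zero {μ : ℂ} (h : μ ^ 2 + 1 = 0) :
    IsPrimitiveRoot (μ ^ 2) 2 := by
  have h1 : μ ^ 2 = -1 := by linear_combination h
  rw [h1]
  exact IsPrimitiveRoot.neg_one 0 (by norm_num)

theorem isPrimitiveRoot_sq_of_trace_one {μ : ℂ} (h : μ ^ 2 - μ + 1 = 0) :
    IsPrimitiveRoot (μ ^ 2) 3 := by
  have h3 : (μ ^ 2) ^ 3 = 1 := by linear_combination (μ ^ 3 - 1) * (μ + 1) * h
  refine IsPrimitiveRoot.mk_of_lt _ (by norm_num) h3 ?_
  intro l hl0 hl3 hl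
  interval_cases l
  · rw [pow_one] at hl
    have h2 : μ = 2 := by linear_combination hl - h
    rw [h2] at hl
    norm_num at hl
  · have h2 : μ = -1 := by linear_combination (-1 : ℂ) * hl + μ * (μ + 1) * h
    rw [h2] at h
    norm_num at h

theorem isPrimitiveRoot_sq_of_trace_neg_one {μ : ℂ} (h : μ ^ 2 + μ + 1 = 0) :
    IsPrimitiveRoot (μ ^ 2) 3 := by
  have h3 : (μ ^ 2) ^ 3 = 1 := by linear_combination (μ ^ 3 + 1) * (μ - 1) * h
  refine IsPrimitiveRoot.mk_of_lt _ (by norm_num) h3 ?_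
  intro l hl0 hl3 hl
  interval_cases l
  · rw [pow_one] at hl
    have h2 : μ = -2 := by linear_combination h - hl
    rw [h2] at hl
    norm_num at hl
  · have h2 : μ = 1 := by linear_combination hl - μ * (μ - 1) * h
    rw [h2] at h
    norm_num at h

/-- **Elliptic data of an element of finite order** `≠ ±1` of `SL(2, ℤ)`: a fixed point `τ₀`,
a prime `s` with `A ^ s = ±1`, and `(c τ₀ + d)²` is a primitive `s`-th root of unity. -/
theorem exists_elliptic_data (A : SL(2, ℤ)) (hA : IsOfFinOrder A) (h1 : A ≠ 1) (h2 : A ≠ -1) :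
    ∃ (τ₀ : ℍ) (s : ℕ), A • τ₀ = τ₀ ∧ s.Prime ∧ (A ^ s = 1 ∨ A ^ s = -1) ∧
      IsPrimitiveRoot (denom (A : GL (Fin 2) ℝ) τ₀ ^ 2) s := by
  have htr := trace_of_isOfFinOrder A hA h1 h2
  have hlt : (A : Matrix (Fin 2) (Fin 2) ℤ).trace ^ 2 < 4 := by
    rcases htr with h | h | h <;> rw [h] <;> norm_num
  obtain ⟨τ₀, hτ₀⟩ := exists_smul_eq_self A hlt
  have hq := denom_sq_sub A τ₀ hτ₀
  rcases htr with h | h | h
  · refine ⟨τ₀, 2, hτ₀, Nat.prime_two, Or.inr (sq_eq_neg_one_of_trace A h), ?_⟩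
    apply isPrimitiveRoot_sq_of_trace_zero
    rw [h] at hq
    linear_combination hq
  · refine ⟨τ₀, 3, hτ₀, Nat.prime_three, Or.inr (cube_eq_neg_one_of_trace A h), ?_⟩
    apply isPrimitiveRoot_sq_of_trace_one
    rw [h] at hq
    linear_combination hq
  · refine ⟨τ₀, 3, hτ₀, Nat.prime_three, Or.inl (cube_eq_one_of_trace A h), ?_⟩
    apply isPrimitiveRoot_sq_of_trace_neg_one
    rw [h] at hq
    linear_combination hq

end Fermat.Agent.S30.H92
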