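/-
S30 (Program A+), leaf (R2a), part 2 (helper92): CONVERSE of (ORD) at the elliptic points, and
the resulting membership `ψ ∈ Hp N p`.

Let `G` be a holomorphic `p`-th root of `Θ(C)` with character `ζ_p ^ ψ`.  If `p ∣ v.ord (evF N C)`
at every place `v` of `F = ℚ̄(j_d)`, then `ψ` kills the elements of finite order of `Γ₀(N)`.

Proof.  An element `γ ≠ ±1` of finite order has a fixed point `τ₀`, multiplier `(cτ₀+d)²` a
primitive `s`-th root of unity (`s ∈ {2, 3}`), and `J - J(τ₀)` vanishes to order exactly `s` at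
`τ₀`; the landed local data at `(τ₀, γ, s)` give a place `v` with
`ord_{τ₀} Θ(C) = s · v.ord (evF N C)`, so `s ∣ ord_{τ₀} G`, and the leading Taylor coefficient of
`G (γ τ) = χ(γ) G τ` at `τ₀` gives `χ(γ) = 1`.
-/
import Mathlib
import Fermat.Agent.S30.H92.ConvCusp
import Fermat.Agent.S30.H92.FinOrder
import Fermat.Agent.S24.H35.JCore

set_option autoImplicit false

open UpperHalfPlane CongruenceSubgroup ModularCurve ModularCurve.Period AlgebraicCurve
open Filter Topology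
open Fermat.Agent.S24 Fermat.Agent.S42.H96
open scoped MatrixGroups Manifold Real

noncomputable section

namespace Fermat.Agent.S30.H92

/-- Twisted form of `dvd_analyticOrderAt_of_fixed`: a germ with `f (γ τ) = χ f τ` at a fixed point
`τ₀` of `γ`, of order `n`, has `χ = (cτ₀ + d)^(-2n)`. -/
theorem mult_eq_of_fixed (τ₀ : ℍ) {f : ℍ → ℂ} (hf : MDiff f) (γ : SL(2, ℤ)) (hγ : γ • τ₀ = τ₀)
    (χ : ℂ) (hinv : ∀ τ, f (γ • τ) = χ * f τ) (n : ℕ)
    (hn : analyticOrderAt (f ∘ ofComplex) (τ₀ : ℂ) = n) :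
    χ * (denom (γ : GL (Fin 2) ℝ) τ₀ ^ 2) ^ n = 1 := by
  have hdet : ((γ : GL (Fin 2) ℝ)).val.det = 1 := TaylorAux.det_coe γ
  have hdet0 : 0 < ((γ : GL (Fin 2) ℝ)).val.det := by rw [hdet]; exact one_pos
  set m : ℂ → ℂ := fun z => (((γ : GL (Fin 2) ℝ) • ofComplex z : ℍ) : ℂ) with hm
  have hmτ : m τ₀ = τ₀ := by
    simp only [hm, ofComplex_apply]
    exact congrArg _ hγ
  have hmd : HasDerivAt m ((((γ : GL (Fin 2) ℝ)).val.det : ℂ) / denom (γ : GL (Fin 2) ℝ) τ₀ ^ 2)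
      (τ₀ : ℂ) := (hasStrictDerivAt_smul hdet0 τ₀).hasDerivAt
  have hF := TaylorAux.analyticAt hf τ₀
  obtain ⟨G, hGa, hG0, hFG⟩ := (hF.analyticOrderAt_eq_natCast).mp hn
  have hinvF : ∀ z, (f ∘ ofComplex) (m z) = χ * (f ∘ ofComplex) z := by
    intro z
    simp only [hm, Function.comp_apply, ofComplex_apply]
    exact hinv _
  have hmc : ContinuousAt m (τ₀ : ℂ) := hmd.continuousAt
  have hmt : Tendsto m (𝓝 (τ₀ : ℂ)) (𝓝 (τ₀ : ℂ)) := by
    have := hmc.tendsto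
    rwa [hmτ] at this
  have h1 : ∀ᶠ z in 𝓝 (τ₀ : ℂ), (m z - τ₀) ^ n * G (m z) = χ * ((z - τ₀) ^ n * G z) := by
    filter_upwards [hFG, hmt.eventually hFG] with z hz hz'
    rw [smul_eq_mul] at hz hz'
    rw [← hz', hinvF, hz]
  have hslope := hasDerivAt_iff_tendsto_slope.mp hmd
  have hGm : Tendsto (fun z => G (m z)) (𝓝[≠] (τ₀ : ℂ)) (𝓝 (G τ₀)) :=
    (hGa.continuousAt.tendsto.comp hmt).mono_left nhdsWithin_le_nhds
  have hlim1 := (hslope.pow n).mul hGm
  have hlim2 : Tendsto (fun z => slope m (τ₀ : ℂ) z ^ n * G (m z)) (𝓝[≠] (τ₀ : ℂ))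
      (𝓝 (χ * G τ₀)) := by
    refine ((hGa.continuousAt.tendsto.mono_left nhdsWithin_le_nhds).const_mul χ).congr' ?_
    filter_upwards [h1.filter_mono nhdsWithin_le_nhds, self_mem_nhdsWithin] with z hz hne
    have hne' : z - (τ₀ : ℂ) ≠ 0 := sub_ne_zero.mpr hne
    have hne'' : (z - (τ₀ : ℂ)) ^ n ≠ 0 := pow_ne_zero n hne'
    rw [slope_def_field, hmτ, div_pow, div_mul_eq_mul_div, hz]
    field_simp
  have hEq := tendsto_nhds_unique hlim1 hlim2
  have hd : denom (γ : GL (Fin 2) ℝ) τ₀ ≠ 0 := denom_ne_zero _ τ₀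
  rw [hdet, Complex.ofReal_one] at hEq
  have h2 : (1 / denom (γ : GL (Fin 2) ℝ) τ₀ ^ 2) ^ n = χ := mul_right_cancel₀ hG0 hEq
  rw [← h2, one_div, inv_pow]
  exact inv_mul_cancel₀ (pow_ne_zero n (pow_ne_zero 2 hd))

/-- `-1` acts trivially on `SL(2, ℤ) ⧸ Γ₀(N)`. -/
theorem neg_one_smul_XX (N : ℕ) (x : XX N) : (-1 : SL(2, ℤ)) • x = x := by
  induction x using QuotientGroup.induction_on with
  | H g =>
    show (((-1 : SL(2, ℤ)) * g : SL(2, ℤ)) : XX N) = ((g : SL(2, ℤ)) : XX N)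
    rw [eq_comm, QuotientGroup.eq]
    have h1 : g⁻¹ * ((-1 : SL(2, ℤ)) * g) = -1 := by simp
    rw [h1]
    exact neg_one_mem N

/-- **Converse (ORD) at the elliptic points**: under the divisibility hypothesis, `ψ` kills the
elements of finite order of `Γ₀(N)`. -/
theorem psi_eq_zero_of_isOfFinOrder (N p : ℕ) [NeZero N] (hp : 0 < p)
    (ψ : Additive (Gamma0 N) →+ ZMod p) (C : MvPolynomial (N.divisors) Kbar)
    (hC : evF N C ≠ 0) (G : ℍ → ℂ) (hG : MDiff G) (hpow : ∀ τ, G τ ^ p = Theta N C τ)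
    (hchar : HasChar N p ψ G)
    (hdvd : ∀ v : Place Kbar (FF N), (p : ℤ) ∣ v.ord (evF N C)) (γ : Gamma0 N)
    (hfin : IsOfFinOrder γ) : ψ (Additive.ofMul γ) = 0 := by
  classical
  set A : SL(2, ℤ) := (γ : SL(2, ℤ)) with hA
  have hAfin : IsOfFinOrder A := (Gamma0 N).subtype.isOfFinOrder hfin
  by_cases h1 : A = 1
  · have h : γ = 1 := Subtype.ext h1
    rw [h, ofMul_one, map_zero]
  by_cases h2 : A = -1
  · have h : γ = ⟨-1, neg_one_mem N⟩ := Subtype.ext h2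
    rw [h]
    exact psi_neg_one N p hp ψ C hC G hpow hchar
  obtain ⟨τ₀, s, hfix, hs, hAs, hprim⟩ := exists_elliptic_data A hAfin h1 h2
  let _ : Fintype (XX N) := Fintype.ofFinite _
  have hγs : ∀ x : XX N, A ^ s • x = x := by
    intro x
    rcases hAs with h | h
    · rw [h, one_smul]
    · rw [h]
      exact neg_one_smul_XX N x
  have hpowx : ∀ (x : XX N) (k : ℕ), A ^ k • x = x → s ∣ k ∨ A • x = x :=
    fun x k hk => H49.dvd_or_smul_eq_of_pow_smul A hs hγs x k hk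
  -- the centre
  have hJd : MDiff (fun τ : ℍ => Jfun τ - Jfun τ₀) := Jfun_mdiff.sub mdifferentiable_const
  have hJinv : ∀ τ, (fun τ : ℍ => Jfun τ - Jfun τ₀) (A • τ) = (fun τ : ℍ => Jfun τ - Jfun τ₀) τ :=
    fun τ => by simp only [Jfun_smul]
  obtain ⟨c, hord⟩ : ∃ c : Kbar,
      analyticOrderAt (fun z : ℂ => Jfun (ofComplex z) - iota c) (τ₀ : ℂ) = s := by
    by_cases h0 : Jfun τ₀ = 0
    · have h3 := H35.analyticOrderAt_Jfun_sub_of_eq_zero h0
      have hdiv := dvd_analyticOrderAt_of_fixed τ₀ hJd A hfix hJinv s 3 hprim h3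
      have hs3 : s = 3 := (Nat.prime_dvd_prime_iff_eq hs Nat.prime_three).mp hdiv
      refine ⟨0, ?_⟩
      rw [map_zero, hs3, ← h0]
      exact h3
    · by_cases h1728 : Jfun τ₀ = 1728
      · have h3 := H35.analyticOrderAt_Jfun_sub_of_eq_1728 h1728
        have hdiv := dvd_analyticOrderAt_of_fixed τ₀ hJd A hfix hJinv s 2 hprim h3
        have hs2 : s = 2 := (Nat.prime_dvd_prime_iff_eq hs Nat.prime_two).mp hdiv
        refine ⟨1728, ?_⟩
        rw [map_ofNat, hs2, ← h1728]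
        exact h3
      · exfalso
        have h3 := H35.analyticOrderAt_Jfun_sub_of_ne h0 h1728
        have hdiv := dvd_analyticOrderAt_of_fixed τ₀ hJd A hfix hJinv s 1 hprim h3
        exact hs.ne_one (Nat.dvd_one.mp hdiv)
  obtain ⟨L, hρ, hφ⟩ := H49.exists_localData_at N c τ₀ A hfix s hs.pos hord hprim hpowx
  have hR := Fermat.Agent.S29.H5.frac_range N
  set x₀ : XX N := ((1 : SL(2, ℤ)) : XX N) with hx₀
  have hfixx : A • x₀ = x₀ := by
    show ((A * 1 : SL(2, ℤ)) : XX N) = ((1 : SL(2, ℤ)) : XX N)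
    rw [eq_comm, QuotientGroup.eq]
    have h3 : (1 : SL(2, ℤ))⁻¹ * (A * 1) = A := by group
    rw [h3]
    exact γ.2
  obtain ⟨v, hv, hx⟩ := L.exists_place_rel x₀
  have he := L.ord_π_eq_minimalPeriod hR v hv hx
  have hper1 : Function.minimalPeriod L.ρ x₀ = 1 := by
    rw [Function.minimalPeriod_eq_one_iff_isFixedPt]
    show L.ρ x₀ = x₀
    rw [hρ]
    exact hfixx
  rw [hper1] at he
  -- the translate of `G`
  set g : SL(2, ℤ) := Quotient.out x₀ with hg
  have hgmem : g ∈ Gamma0 N := by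
    have h3 : ((g : SL(2, ℤ)) : XX N) = ((1 : SL(2, ℤ)) : XX N) := QuotientGroup.out_eq' x₀
    have h4 := QuotientGroup.eq.mp h3.symm
    have h5 : (1 : SL(2, ℤ))⁻¹ * g = g := by group
    rw [h5] at h4
    exact h4
  set Gx : ℍ → ℂ := fun τ => G (g⁻¹ • τ) with hGx
  have hGxd : MDiff Gx := H92.mdiff_comp_smul g⁻¹ hG
  have htr : transl N x₀ C = Gx ^ p := by
    funext τ
    show Theta N C (g⁻¹ • τ) = G (g⁻¹ • τ) ^ p
    rw [hpow]
  set T : PowerSeries ℂ := taylorAt τ₀ Gx with hT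
  have hTp : taylorAt τ₀ (transl N x₀ C) = T ^ p := by
    rw [htr, (Fermat.Agent.S29.H5.taylorAt_pow τ₀ hGxd p).1]
  have hT0 : T ≠ 0 := by
    intro h0
    have h3 : taylorAt τ₀ (transl N x₀ C) = 0 := by
      rw [hTp, h0, zero_pow hp.ne']
    have h4 : transl N x₀ C = 0 := (taylorAt_eq_zero_iff τ₀ (mdiff_transl N x₀ C)).mp h3
    exact hC ((Theta_eq_zero_iff N C).mp ((transl_eq_zero_iff N x₀ C).mp h4))
  set μ₀ : ℕ := T.order.toNat with hμ
  have hTord : T.order = (μ₀ : ℕ∞) := by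
    rw [hμ, ENat.natCast_toNat]
    exact fun h => hT0 (PowerSeries.order_eq_top.mp h)
  have hordP : (L.φ x₀ (evF N C)).order = (p : ℤ) * μ₀ := by
    rw [hφ, hTp, map_pow, lorder_pow, order_ofPowerSeries hT0]
  -- the value of `L.s`
  have hLs : (L.s : ℤ) = s := by
    have h3 := L.order_π x₀
    have hπ : jgen N - algebraMap Kbar (FF N) c
        = evF N (MvPolynomial.X (oneDiv N) - MvPolynomial.C c) := by
      rw [map_sub, evF_X_one]
      congr 1
      simp [evF]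
    have htrπ : transl N x₀ (MvPolynomial.X (oneDiv N) - MvPolynomial.C c)
        = fun τ => Jfun τ - iota c := by
      rw [H49.transl_sub, transl_X_one, transl_C]
      rfl
    have hd : MDiff (fun τ : ℍ => Jfun τ - iota c) := by
      rw [← htrπ]
      exact mdiff_transl N x₀ _
    have h4 : (taylorAt τ₀ (fun τ : ℍ => Jfun τ - iota c)).order = (s : ℕ∞) := by
      rw [order_taylorAt τ₀ hd]
      exact hord
    have h5 : taylorAt τ₀ (fun τ : ℍ => Jfun τ - iota c) ≠ 0 := by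
      intro h0
      rw [h0, PowerSeries.order_zero] at h4
      exact ENat.top_ne_natCast s h4
    have h3' : (L.φ x₀ (evF N (MvPolynomial.X (oneDiv N) - MvPolynomial.C c))).order = L.s := by
      rw [← hπ]
      exact h3
    rw [hφ, htrπ, order_ofPowerSeries h5, h4] at h3'
    simpa using h3'.symm
  have hrel := hx (evF N C)
  rw [hordP, hLs, he] at hrel
  obtain ⟨n', hn'⟩ := hdvd v
  have hp' : (p : ℤ) ≠ 0 := by exact_mod_cast hp.ne'
  have hμs : (μ₀ : ℤ) = s * n' := by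
    apply mul_left_cancel₀ hp'
    rw [hn'] at hrel
    push_cast at hrel
    linear_combination hrel
  have hsμ : s ∣ μ₀ := Int.natCast_dvd_natCast.mp ⟨n', hμs⟩
  -- the multiplier
  set γ' : Gamma0 N := (⟨g, hgmem⟩ : Gamma0 N)⁻¹ * γ * ⟨g, hgmem⟩ with hγ'
  have hGxinv : ∀ τ, Gx (A • τ) = chiOf p ψ γ' * Gx τ := by
    intro τ
    have h4 := hchar γ' (g⁻¹ • τ)
    show G (g⁻¹ • A • τ) = chiOf p ψ γ' * G (g⁻¹ • τ)
    rw [← h4]
    congr 1
    show g⁻¹ • A • τ = (g⁻¹ * A * g) • g⁻¹ • τ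
    rw [mul_smul, mul_smul, smul_inv_smul]
  have hn : analyticOrderAt (Gx ∘ ofComplex) (τ₀ : ℂ) = μ₀ := by
    rw [← order_taylorAt τ₀ hGxd]
    exact hTord
  have hmult := mult_eq_of_fixed τ₀ hGxd A hfix _ hGxinv μ₀ hn
  rw [(hprim.pow_eq_one_iff_dvd μ₀).mpr hsμ, mul_one] at hmult
  have hψ' : ψ (Additive.ofMul γ') = 0 := (chiOf_eq_one_iff hp.ne' ψ γ').mp hmult
  rw [hγ', ofMul_mul, ofMul_mul, map_add, map_add, ofMul_inv, map_neg, neg_add_cancel_comm]
    at hψ'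
  exact hψ'

/-- **(CONV-ORD).**  If `Θ(C)` has a holomorphic `p`-th root with character `ζ_p ^ ψ` and `p`
divides the order of `evF N C` at every place, then `ψ ∈ Hp N p`: it is parabolic and kills the
elements of finite order. -/
theorem mem_Hp_of_rootQ (N p : ℕ) [NeZero N] (hp : p ≠ 0) (ψ : Additive (Gamma0 N) →+ ZMod p)
    (C : MvPolynomial (N.divisors) Kbar) (hC : evF N C ≠ 0) (hroot : RootQ N p ψ C)
    (hdvd : ∀ v : Place Kbar (FF N), (p : ℤ) ∣ v.ord (evF N C)) : ψ ∈ Hp N p := by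
  obtain ⟨G, hG, hpow, hchar⟩ := hroot
  have hp0 : 0 < p := Nat.pos_of_ne_zero hp
  exact ⟨fun γ hγ => psi_eq_zero_of_trace N p hp0 ψ C hC G hG hpow hchar hdvd γ hγ,
    fun γ hγ => psi_eq_zero_of_isOfFinOrder N p hp0 ψ C hC G hG hpow hchar hdvd γ hγ⟩

end Fermat.Agent.S30.H92
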